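/-
P-S58 row 1094 S58-HASSE2 (helper48), part 2: the Hasse relation for the three supersingular
normal forms `y² + y = x³`, `y² + y = x³ + x`, `y² + y = x³ + x + 1` over `𝔽₂`
(traces `0`, `-2`, `2`).  Duplication is polynomial (`λ = x² + a₄`), and for `a₄ = 1` the chord
through `φ² P` and `2 P` has slope `x⁴`; all identities are checked by `linear_combination`
with explicit cofactors of the curve equation and of `2 = 0`.
-/
import Fermat.Agent.H48.S58.Hasse2Basic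

set_option autoImplicit false
set_option linter.unusedSectionVars false
set_option linter.style.haveILetI false
set_option maxHeartbeats 1000000

namespace Fermat.Agent.H48.S58

open WeierstrassCurve WeierstrassCurve.Affine
open Fermat.Agent.H40 Fermat.Agent.H74 Fermat.Agent.H46

variable {k : Type} [Field k] [DecidableEq k] [Algebra (ZMod 2) k]

theorem trace_ss00 : (⟨0, 0, 1, 0, 0⟩ : WeierstrassCurve (ZMod 2)).traceOfFrobenius = 0 := by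
  rw [traceOfFrobenius_zmod2 _ {(0, 0), (0, 1)}
    (by simp only [nonsingular_iff, equation_iff]; decide)]
  rfl

theorem hasseOp_ss00 (P : ((⟨0, 0, 1, 0, 0⟩ : WeierstrassCurve (ZMod 2))⁄k).Point) :
    hasseOp (⟨0, 0, 1, 0, 0⟩ : WeierstrassCurve (ZMod 2)) k P = 0 := by
  cases P with
  | zero => exact map_zero _
  | some x y h =>
    have h2 : (2 : k) = 0 := two_eq_zero_of_algebra
    obtain ⟨c1, c2, c3, c4, c6⟩ := coeffs_baseChange (k := k) 0 0 1 0 0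
    simp only [map_zero, map_one] at c1 c2 c3 c4 c6
    have hE := h.1
    rw [equation_iff, c1, c2, c3, c4, c6] at hE
    have hy : y ≠ ((⟨0, 0, 1, 0, 0⟩ : WeierstrassCurve (ZMod 2))⁄k).negY x y := by
      intro hcon
      rw [negY, c1, c3] at hcon
      exact one_ne_zero (α := k) (by linear_combination hcon + (-y) * h2)
    have hL : ((⟨0, 0, 1, 0, 0⟩ : WeierstrassCurve (ZMod 2))⁄k).slope x x y y = x ^ 2 + 0 := by
      rw [slope_of_Y_ne rfl hy, negY, c1, c2, c3, c4]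
      have hden : y - (-y - 0 * x - 1) = 1 := by linear_combination y * h2
      rw [hden, div_one]
      linear_combination x ^ 2 * h2
    have hX : ((⟨0, 0, 1, 0, 0⟩ : WeierstrassCurve (ZMod 2))⁄k).addX x x (((⟨0, 0, 1, 0, 0⟩ : WeierstrassCurve (ZMod 2))⁄k).slope x x y y) = (x ^ 2) ^ 2 := by
      rw [hL, addX, c1, c2]
      linear_combination (-x) * h2
    have hY : ((⟨0, 0, 1, 0, 0⟩ : WeierstrassCurve (ZMod 2))⁄k).addY x x y (((⟨0, 0, 1, 0, 0⟩ : WeierstrassCurve (ZMod 2))⁄k).slope x x y y) = x ^ 2 * (x ^ 4 + x) + y + 1 := by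
      rw [addY, negAddY, negY, hX, hL, c1, c3]
      linear_combination (-x ^ 6 - y - 1) * h2
    obtain ⟨hQ, eQ⟩ := add_self_eq h hy hX hY
    obtain ⟨hφ, eφ⟩ := frob2_some (⟨0, 0, 1, 0, 0⟩ : WeierstrassCurve (ZMod 2)) h
    obtain ⟨hφφ, eφφ⟩ := frob2_some (⟨0, 0, 1, 0, 0⟩ : WeierstrassCurve (ZMod 2)) hφ
    have hneg : ((⟨0, 0, 1, 0, 0⟩ : WeierstrassCurve (ZMod 2))⁄k).negY ((x ^ 2) ^ 2) ((y ^ 2) ^ 2) = x ^ 2 * (x ^ 4 + x) + y + 1 := by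
      rw [negY, c1, c3]
      linear_combination (-x ^ 3 - y ^ 2 + y - 1) * hE + (-x ^ 6 + x ^ 3 * y - x ^ 3 - 1) * h2
    obtain ⟨hN, eN⟩ := neg_eq_some hφφ hneg
    rw [hasseOp2_apply, trace_ss00, zero_smul, sub_zero, eQ, eφ, eφφ, ← eN, add_neg_cancel]

theorem hasseRelation_ss00 : HasseRelation (⟨0, 0, 1, 0, 0⟩ : WeierstrassCurve (ZMod 2)) := by
  intro k _ _ _ P
  rw [hasseOp_ss00, smul_zero]

theorem trace_ss10 : (⟨0, 0, 1, 1, 0⟩ : WeierstrassCurve (ZMod 2)).traceOfFrobenius = -2 := by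
  rw [traceOfFrobenius_zmod2 _ {(0, 0), (0, 1), (1, 0), (1, 1)}
    (by simp only [nonsingular_iff, equation_iff]; decide)]
  rfl

theorem hasseOp_ss10 (P : ((⟨0, 0, 1, 1, 0⟩ : WeierstrassCurve (ZMod 2))⁄k).Point) :
    hasseOp (⟨0, 0, 1, 1, 0⟩ : WeierstrassCurve (ZMod 2)) k P = 0 := by
  cases P with
  | zero => exact map_zero _
  | some x y h =>
    have h2 : (2 : k) = 0 := two_eq_zero_of_algebra
    obtain ⟨c1, c2, c3, c4, c6⟩ := coeffs_baseChange (k := k) 0 0 1 1 0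
    simp only [map_zero, map_one] at c1 c2 c3 c4 c6
    have hE := h.1
    rw [equation_iff, c1, c2, c3, c4, c6] at hE
    have hy : y ≠ ((⟨0, 0, 1, 1, 0⟩ : WeierstrassCurve (ZMod 2))⁄k).negY x y := by
      intro hcon
      rw [negY, c1, c3] at hcon
      exact one_ne_zero (α := k) (by linear_combination hcon + (-y) * h2)
    have hL : ((⟨0, 0, 1, 1, 0⟩ : WeierstrassCurve (ZMod 2))⁄k).slope x x y y = x ^ 2 + 1 := by
      rw [slope_of_Y_ne rfl hy, negY, c1, c2, c3, c4]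
      have hden : y - (-y - 0 * x - 1) = 1 := by linear_combination y * h2
      rw [hden, div_one]
      linear_combination x ^ 2 * h2
    have hX : ((⟨0, 0, 1, 1, 0⟩ : WeierstrassCurve (ZMod 2))⁄k).addX x x (((⟨0, 0, 1, 1, 0⟩ : WeierstrassCurve (ZMod 2))⁄k).slope x x y y) = x ^ 4 + 1 := by
      rw [hL, addX, c1, c2]
      linear_combination (x ^ 2 - x) * h2
    have hY : ((⟨0, 0, 1, 1, 0⟩ : WeierstrassCurve (ZMod 2))⁄k).addY x x y (((⟨0, 0, 1, 1, 0⟩ : WeierstrassCurve (ZMod 2))⁄k).slope x x y y) = (x ^ 2 + 1) * (x ^ 4 + 1 + x) + y + 1 := by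
      rw [addY, negAddY, negY, hX, hL, c1, c3]
      linear_combination (-x ^ 6 - x ^ 4 - x ^ 2 - y - 2) * h2
    obtain ⟨hQ, eQ⟩ := add_self_eq h hy hX hY
    obtain ⟨hφ, eφ⟩ := frob2_some (⟨0, 0, 1, 1, 0⟩ : WeierstrassCurve (ZMod 2)) h
    obtain ⟨hφφ, eφφ⟩ := frob2_some (⟨0, 0, 1, 1, 0⟩ : WeierstrassCurve (ZMod 2)) hφ
    obtain ⟨hφQ, eφQ⟩ := frob2_some (⟨0, 0, 1, 1, 0⟩ : WeierstrassCurve (ZMod 2)) hQ
    have hne : (x ^ 2) ^ 2 ≠ x ^ 4 + 1 := by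
      intro hcon
      exact one_ne_zero (α := k) (by linear_combination -hcon)
    have hL' : ((⟨0, 0, 1, 1, 0⟩ : WeierstrassCurve (ZMod 2))⁄k).slope ((x ^ 2) ^ 2) (x ^ 4 + 1) ((y ^ 2) ^ 2) ((x ^ 2 + 1) * (x ^ 4 + 1 + x) + y + 1) = x ^ 4 := by
      rw [slope_of_X_ne hne, div_eq_iff (sub_ne_zero.mpr hne)]
      linear_combination (x ^ 3 + x + y ^ 2 - y + 1) * hE + (x ^ 4 - x ^ 3 * y - x * y - y - 1) * h2
    have hX3 : ((⟨0, 0, 1, 1, 0⟩ : WeierstrassCurve (ZMod 2))⁄k).addX ((x ^ 2) ^ 2) (x ^ 4 + 1)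
        (((⟨0, 0, 1, 1, 0⟩ : WeierstrassCurve (ZMod 2))⁄k).slope ((x ^ 2) ^ 2) (x ^ 4 + 1) ((y ^ 2) ^ 2) ((x ^ 2 + 1) * (x ^ 4 + 1 + x) + y + 1)) = (x ^ 4 + 1) ^ 2 := by
      rw [hL', addX, c1, c2]
      linear_combination (-2 * x ^ 4 - 1) * h2
    have hY3 : ((⟨0, 0, 1, 1, 0⟩ : WeierstrassCurve (ZMod 2))⁄k).addY ((x ^ 2) ^ 2) (x ^ 4 + 1) ((y ^ 2) ^ 2)
        (((⟨0, 0, 1, 1, 0⟩ : WeierstrassCurve (ZMod 2))⁄k).slope ((x ^ 2) ^ 2) (x ^ 4 + 1) ((y ^ 2) ^ 2) ((x ^ 2 + 1) * (x ^ 4 + 1 + x) + y + 1)) = -(((x ^ 2 + 1) * (x ^ 4 + 1 + x) + y + 1) ^ 2) - 0 * (x ^ 4 + 1) ^ 2 - 1 := by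
      rw [addY, negAddY, negY, hX3, hL', c1, c3]
      linear_combination (-x ^ 3 - x - y ^ 2 + y) * hE + (x ^ 10 + x ^ 9 + x ^ 8 + 2 * x ^ 7 + x ^ 6 * y + 3 * x ^ 6 + 2 * x ^ 5 + x ^ 4 * y + 2 * x ^ 4 + 2 * x ^ 3 * y + 3 * x ^ 3 + x ^ 2 * y + 2 * x ^ 2 + 2 * x * y + 2 * x + 2 * y + 2) * h2
    obtain ⟨hS, eS⟩ := add_eq_of_X_ne hφφ hQ hne hX3 hY3
    have e2φ : (-2 : ℤ) • frobPt (⟨0, 0, 1, 1, 0⟩ : WeierstrassCurve (ZMod 2)) k (Point.some x y h) =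
        -frobPt (⟨0, 0, 1, 1, 0⟩ : WeierstrassCurve (ZMod 2)) k (Point.some x y h + Point.some x y h) := by
      rw [neg_smul, two_zsmul, map_add]
    have hnegQ : ((⟨0, 0, 1, 1, 0⟩ : WeierstrassCurve (ZMod 2))⁄k).negY ((x ^ 4 + 1) ^ 2) (((x ^ 2 + 1) * (x ^ 4 + 1 + x) + y + 1) ^ 2) = -(((x ^ 2 + 1) * (x ^ 4 + 1 + x) + y + 1) ^ 2) - 0 * (x ^ 4 + 1) ^ 2 - 1 := by
      rw [negY, c1, c3]
    obtain ⟨hN, eN⟩ := neg_eq_some hφQ hnegQ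
    rw [hasseOp2_apply, trace_ss10, e2φ, eQ, eφQ, eφ, eφφ, sub_neg_eq_add, add_right_comm, eS,
      ← eN]
    exact neg_add_cancel _

theorem hasseRelation_ss10 : HasseRelation (⟨0, 0, 1, 1, 0⟩ : WeierstrassCurve (ZMod 2)) := by
  intro k _ _ _ P
  rw [hasseOp_ss10, smul_zero]

theorem trace_ss11 : (⟨0, 0, 1, 1, 1⟩ : WeierstrassCurve (ZMod 2)).traceOfFrobenius = 2 := by
  rw [traceOfFrobenius_zmod2 _ ∅
    (by simp only [nonsingular_iff, equation_iff]; decide)]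
  rfl

theorem hasseOp_ss11 (P : ((⟨0, 0, 1, 1, 1⟩ : WeierstrassCurve (ZMod 2))⁄k).Point) :
    hasseOp (⟨0, 0, 1, 1, 1⟩ : WeierstrassCurve (ZMod 2)) k P = 0 := by
  cases P with
  | zero => exact map_zero _
  | some x y h =>
    have h2 : (2 : k) = 0 := two_eq_zero_of_algebra
    obtain ⟨c1, c2, c3, c4, c6⟩ := coeffs_baseChange (k := k) 0 0 1 1 1
    simp only [map_zero, map_one] at c1 c2 c3 c4 c6
    have hE := h.1
    rw [equation_iff, c1, c2, c3, c4, c6] at hE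
    have hy : y ≠ ((⟨0, 0, 1, 1, 1⟩ : WeierstrassCurve (ZMod 2))⁄k).negY x y := by
      intro hcon
      rw [negY, c1, c3] at hcon
      exact one_ne_zero (α := k) (by linear_combination hcon + (-y) * h2)
    have hL : ((⟨0, 0, 1, 1, 1⟩ : WeierstrassCurve (ZMod 2))⁄k).slope x x y y = x ^ 2 + 1 := by
      rw [slope_of_Y_ne rfl hy, negY, c1, c2, c3, c4]
      have hden : y - (-y - 0 * x - 1) = 1 := by linear_combination y * h2
      rw [hden, div_one]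
      linear_combination x ^ 2 * h2
    have hX : ((⟨0, 0, 1, 1, 1⟩ : WeierstrassCurve (ZMod 2))⁄k).addX x x (((⟨0, 0, 1, 1, 1⟩ : WeierstrassCurve (ZMod 2))⁄k).slope x x y y) = x ^ 4 + 1 := by
      rw [hL, addX, c1, c2]
      linear_combination (x ^ 2 - x) * h2
    have hY : ((⟨0, 0, 1, 1, 1⟩ : WeierstrassCurve (ZMod 2))⁄k).addY x x y (((⟨0, 0, 1, 1, 1⟩ : WeierstrassCurve (ZMod 2))⁄k).slope x x y y) = (x ^ 2 + 1) * (x ^ 4 + 1 + x) + y + 1 := by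
      rw [addY, negAddY, negY, hX, hL, c1, c3]
      linear_combination (-x ^ 6 - x ^ 4 - x ^ 2 - y - 2) * h2
    obtain ⟨hQ, eQ⟩ := add_self_eq h hy hX hY
    obtain ⟨hφ, eφ⟩ := frob2_some (⟨0, 0, 1, 1, 1⟩ : WeierstrassCurve (ZMod 2)) h
    obtain ⟨hφφ, eφφ⟩ := frob2_some (⟨0, 0, 1, 1, 1⟩ : WeierstrassCurve (ZMod 2)) hφ
    obtain ⟨hφQ, eφQ⟩ := frob2_some (⟨0, 0, 1, 1, 1⟩ : WeierstrassCurve (ZMod 2)) hQ
    have hne : (x ^ 2) ^ 2 ≠ x ^ 4 + 1 := by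
      intro hcon
      exact one_ne_zero (α := k) (by linear_combination -hcon)
    have hL' : ((⟨0, 0, 1, 1, 1⟩ : WeierstrassCurve (ZMod 2))⁄k).slope ((x ^ 2) ^ 2) (x ^ 4 + 1) ((y ^ 2) ^ 2) ((x ^ 2 + 1) * (x ^ 4 + 1 + x) + y + 1) = x ^ 4 := by
      rw [slope_of_X_ne hne, div_eq_iff (sub_ne_zero.mpr hne)]
      linear_combination (x ^ 3 + x + y ^ 2 - y + 2) * hE + (x ^ 4 - x ^ 3 * y + x ^ 3 - x * y + x - 2 * y) * h2
    have hX3 : ((⟨0, 0, 1, 1, 1⟩ : WeierstrassCurve (ZMod 2))⁄k).addX ((x ^ 2) ^ 2) (x ^ 4 + 1)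
        (((⟨0, 0, 1, 1, 1⟩ : WeierstrassCurve (ZMod 2))⁄k).slope ((x ^ 2) ^ 2) (x ^ 4 + 1) ((y ^ 2) ^ 2) ((x ^ 2 + 1) * (x ^ 4 + 1 + x) + y + 1)) = (x ^ 4 + 1) ^ 2 := by
      rw [hL', addX, c1, c2]
      linear_combination (-2 * x ^ 4 - 1) * h2
    have hY3 : ((⟨0, 0, 1, 1, 1⟩ : WeierstrassCurve (ZMod 2))⁄k).addY ((x ^ 2) ^ 2) (x ^ 4 + 1) ((y ^ 2) ^ 2)
        (((⟨0, 0, 1, 1, 1⟩ : WeierstrassCurve (ZMod 2))⁄k).slope ((x ^ 2) ^ 2) (x ^ 4 + 1) ((y ^ 2) ^ 2) ((x ^ 2 + 1) * (x ^ 4 + 1 + x) + y + 1)) = ((x ^ 2 + 1) * (x ^ 4 + 1 + x) + y + 1) ^ 2 := by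
      rw [addY, negAddY, negY, hX3, hL', c1, c3]
      linear_combination (-x ^ 3 - x - y ^ 2 + y - 3) * hE + (-x ^ 12 - x ^ 10 - x ^ 9 - 2 * x ^ 8 - 2 * x ^ 7 - x ^ 6 * y - 4 * x ^ 6 - 2 * x ^ 5 - x ^ 4 * y - 5 * x ^ 4 - 5 * x ^ 3 - x ^ 2 * y - 3 * x ^ 2 - 4 * x - 4) * h2
    obtain ⟨hS, eS⟩ := add_eq_of_X_ne hφφ hQ hne hX3 hY3
    have e2φ : (2 : ℤ) • frobPt (⟨0, 0, 1, 1, 1⟩ : WeierstrassCurve (ZMod 2)) k (Point.some x y h) =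
        frobPt (⟨0, 0, 1, 1, 1⟩ : WeierstrassCurve (ZMod 2)) k (Point.some x y h + Point.some x y h) := by
      rw [two_zsmul, map_add]
    rw [hasseOp2_apply, trace_ss11, e2φ, eQ, eφQ, eφ, eφφ, sub_add_eq_add_sub, eS]
    exact sub_self _

theorem hasseRelation_ss11 : HasseRelation (⟨0, 0, 1, 1, 1⟩ : WeierstrassCurve (ZMod 2)) := by
  intro k _ _ _ P
  rw [hasseOp_ss11, smul_zero]

end Fermat.Agent.H48.S58
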