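/-
P-S58 row 1094 S58-HASSE2 (helper48), part 3: assembly.  `HasseSmallStatement 2` from the Hasse
relation of the two ordinary normal forms `y² + xy = x³ + 1`, `y² + xy = x³ + x² + 1`
(the three supersingular normal forms are in `Hasse2SS`).
-/
import Fermat.Agent.H48.S58.Hasse2SS
import Fermat.Agent.H51.S58.Interfaces

set_option autoImplicit false
set_option linter.unusedSectionVars false
set_option linter.style.haveILetI false

namespace Fermat.Agent.H48.S58

open WeierstrassCurve WeierstrassCurve.Affine
open Fermat.Agent.H40 Fermat.Agent.H74 Fermat.Agent.H46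

/-- **[HASSE2]**, modulo the two ordinary normal forms. -/
theorem hasseTwo_of_ordinary
    (h1 : HasseRelation (⟨1, 0, 0, 0, 1⟩ : WeierstrassCurve (ZMod 2)))
    (h2 : HasseRelation (⟨1, 1, 0, 0, 1⟩ : WeierstrassCurve (ZMod 2))) :
    @Fermat.Agent.H51.S58.HasseSmallStatement 2 (Fact.mk Nat.prime_two) := by
  intro E hΔ
  obtain ⟨C, hC⟩ := exists_normalForm2 E hΔ
  apply hasseRelation_of_variableChange C E
  rcases hC with hC | hC | hC | hC | hC <;> rw [hC]
  · exact hasseRelation_ss00
  · exact hasseRelation_ss10
  · exact hasseRelation_ss11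
  · exact h1
  · exact h2

end Fermat.Agent.H48.S58
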