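/-
P-S58 row 1094 S58-HASSE2 (helper48), part 1: generic tools for the Hasse relation over `𝔽₂`.

* `hasseRelation_of_variableChange`: transfer of `HasseRelation` along a change of variables
  defined over `ZMod ℓ`;
* `exists_normalForm2`: every nonsingular Weierstrass equation over `𝔽₂` is isomorphic over
  `𝔽₂` to one of five normal forms;
* `card_point_zmod2`: point counts over `𝔽₂` by enumeration;
* `frob2_some`, `hasseOp2_apply`: the Frobenius and the Hasse operator at a point.
-/
import Fermat.Agent.H74.HasseGeneral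

set_option autoImplicit false
set_option linter.unusedSectionVars false
set_option linter.style.haveILetI false
set_option maxHeartbeats 1000000

namespace Fermat.Agent.H48.S58

open WeierstrassCurve WeierstrassCurve.Affine
open Fermat.Agent.H40 Fermat.Agent.H74 Fermat.Agent.H46

/-! ### Transfer along a change of variables -/

theorem hasseRelation_of_variableChange {ℓ : ℕ} [Fact ℓ.Prime] (C : VariableChange (ZMod ℓ))
    (E : WeierstrassCurve (ZMod ℓ)) (h : HasseRelation (C • E)) : HasseRelation E := by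
  intro k _ _ _ P
  have htr : E.traceOfFrobenius = (C • E).traceOfFrobenius := by
    simp only [WeierstrassCurve.traceOfFrobenius, WeierstrassCurve.card]
    rw [Nat.card_congr (vcPointEquiv C E).toEquiv]
  have hop : ∀ Q : ((C • E)⁄k).Point,
      hasseOp E k (vcBase C E Q) = vcBase C E (hasseOp (C • E) k Q) := by
    intro Q
    rw [hasseOp_apply, hasseOp_apply, frobPt_vcBase, frobPt_vcBase, map_add, map_sub,
      map_zsmul, map_zsmul, htr]
  obtain ⟨Q, rfl⟩ := vcBase_surjective C E P
  rw [hop, ← map_zsmul, h k Q, map_zero]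

/-! ### The five normal forms over `𝔽₂` -/

theorem exists_normalForm2 (E : WeierstrassCurve (ZMod 2)) (hΔ : E.Δ ≠ 0) :
    ∃ C : VariableChange (ZMod 2), C • E = ⟨0, 0, 1, 0, 0⟩ ∨ C • E = ⟨0, 0, 1, 1, 0⟩ ∨
      C • E = ⟨0, 0, 1, 1, 1⟩ ∨ C • E = ⟨1, 0, 0, 0, 1⟩ ∨ C • E = ⟨1, 1, 0, 0, 1⟩ := by
  obtain ⟨a1, a2, a3, a4, a6⟩ := E
  refine ⟨⟨1, if a1 = 0 then a6 * (1 + a2 + a4) else a3,
    if a1 = 0 then a2 + a6 * (1 + a2 + a4) else 0, if a1 = 0 then 0 else a4 + a3⟩, ?_⟩
  fin_cases a1 <;> fin_cases a2 <;> fin_cases a3 <;> fin_cases a4 <;> fin_cases a6 <;>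
    first
    | exact absurd (by decide) hΔ
    | (left; ext <;> simp [variableChange_a₁, variableChange_a₂, variableChange_a₃,
        variableChange_a₄, variableChange_a₆] <;> decide)
    | (right; left; ext <;> simp [variableChange_a₁, variableChange_a₂, variableChange_a₃,
        variableChange_a₄, variableChange_a₆] <;> decide)
    | (right; right; left; ext <;> simp [variableChange_a₁, variableChange_a₂, variableChange_a₃,
        variableChange_a₄, variableChange_a₆] <;> decide)
    | (right; right; right; left; ext <;> simp [variableChange_a₁, variableChange_a₂,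
        variableChange_a₃, variableChange_a₄, variableChange_a₆] <;> decide)
    | (right; right; right; right; ext <;> simp [variableChange_a₁, variableChange_a₂,
        variableChange_a₃, variableChange_a₄, variableChange_a₆] <;> decide)

/-! ### Point counts over `𝔽₂` -/

/-- The points of an affine Weierstrass curve as an option type. -/
noncomputable def pointEquivOption {F : Type} [Field F] (W : Affine F) :
    W.Point ≃ Option {xy : F × F // W.Nonsingular xy.1 xy.2} where
  toFun P := match P with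
    | .zero => none
    | .some x y h => some ⟨(x, y), h⟩
  invFun o := match o with
    | none => .zero
    | some ⟨(x, y), h⟩ => .some x y h
  left_inv P := by cases P <;> rfl
  right_inv o := by
    cases o with
    | none => rfl
    | some z => obtain ⟨⟨x, y⟩, h⟩ := z; rfl

theorem card_point_zmod2 (W : WeierstrassCurve (ZMod 2)) (s : Finset (ZMod 2 × ZMod 2))
    (hs : ∀ x y : ZMod 2, (x, y) ∈ s ↔ W.toAffine.Nonsingular x y) :
    Nat.card W.toAffine.Point = s.card + 1 := by
  classical
  rw [Nat.card_congr (pointEquivOption W.toAffine), Nat.card_eq_fintype_card,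
    Fintype.card_option, Fintype.card_subtype]
  congr 2
  ext ⟨x, y⟩
  simp [hs]

theorem traceOfFrobenius_zmod2 (W : WeierstrassCurve (ZMod 2)) (s : Finset (ZMod 2 × ZMod 2))
    (hs : ∀ x y : ZMod 2, (x, y) ∈ s ↔ W.toAffine.Nonsingular x y) :
    W.traceOfFrobenius = 2 - (s.card : ℤ) := by
  simp only [WeierstrassCurve.traceOfFrobenius, WeierstrassCurve.card,
    card_point_zmod2 W s hs, Nat.card_zmod]
  push_cast
  ring

/-! ### Frobenius and the Hasse operator at a point -/

section field

variable {k : Type} [Field k] [DecidableEq k] [Algebra (ZMod 2) k]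

theorem two_eq_zero_of_algebra : (2 : k) = 0 := by
  have : CharP k 2 := charP_of_injective_algebraMap (algebraMap (ZMod 2) k).injective 2
  exact CharTwo.two_eq_zero

/-- Coefficient bookkeeping for a literal curve. -/
theorem coeffs_baseChange (a1 a2 a3 a4 a6 : ZMod 2) :
    ((⟨a1, a2, a3, a4, a6⟩ : WeierstrassCurve (ZMod 2))⁄k).a₁ = algebraMap (ZMod 2) k a1 ∧
    ((⟨a1, a2, a3, a4, a6⟩ : WeierstrassCurve (ZMod 2))⁄k).a₂ = algebraMap (ZMod 2) k a2 ∧
    ((⟨a1, a2, a3, a4, a6⟩ : WeierstrassCurve (ZMod 2))⁄k).a₃ = algebraMap (ZMod 2) k a3 ∧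
    ((⟨a1, a2, a3, a4, a6⟩ : WeierstrassCurve (ZMod 2))⁄k).a₄ = algebraMap (ZMod 2) k a4 ∧
    ((⟨a1, a2, a3, a4, a6⟩ : WeierstrassCurve (ZMod 2))⁄k).a₆ = algebraMap (ZMod 2) k a6 :=
  ⟨rfl, rfl, rfl, rfl, rfl⟩

theorem frob2_some (E : WeierstrassCurve (ZMod 2)) {x y : k} (h : (E⁄k).Nonsingular x y) :
    ∃ h' : (E⁄k).Nonsingular (x ^ 2) (y ^ 2),
      frobPt E k (Point.some x y h) = Point.some (x ^ 2) (y ^ 2) h' := by
  have hcard : Fintype.card (ZMod 2) = 2 := ZMod.card 2
  obtain ⟨h1, e1⟩ := frobPt_some E k h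
  have h1' : (E⁄k).Nonsingular (x ^ 2) (y ^ 2) := by
    rw [hcard] at h1
    exact h1
  refine ⟨h1', ?_⟩
  rw [e1]
  simp only [Point.some.injEq]
  exact ⟨by rw [hcard], by rw [hcard]⟩

theorem some_congr {W : Affine k} {x x' y y' : k} (h : W.Nonsingular x y) (hx : x = x')
    (hy : y = y') :
    ∃ h' : W.Nonsingular x' y', Point.some x y h = Point.some x' y' h' := by
  subst hx hy
  exact ⟨h, rfl⟩

theorem some_eq_some {W : Affine k} {x x' y y' : k} (h : W.Nonsingular x y)
    (h' : W.Nonsingular x' y') (hx : x = x') (hy : y = y') :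
    Point.some x y h = Point.some x' y' h' := by
  subst hx hy
  rfl

/-- Duplication with prescribed coordinates. -/
theorem add_self_eq {W : Affine k} {x y X Y : k} (h : W.Nonsingular x y) (hy : y ≠ W.negY x y)
    (hX : W.addX x x (W.slope x x y y) = X) (hY : W.addY x x y (W.slope x x y y) = Y) :
    ∃ h' : W.Nonsingular X Y, Point.some x y h + Point.some x y h = Point.some X Y h' := by
  subst hX hY
  exact ⟨_, Point.add_self_of_Y_ne hy⟩

/-- Chord addition with prescribed coordinates. -/
theorem add_eq_of_X_ne {W : Affine k} {x₁ x₂ y₁ y₂ X Y : k} (h₁ : W.Nonsingular x₁ y₁)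
    (h₂ : W.Nonsingular x₂ y₂) (hx : x₁ ≠ x₂)
    (hX : W.addX x₁ x₂ (W.slope x₁ x₂ y₁ y₂) = X)
    (hY : W.addY x₁ x₂ y₁ (W.slope x₁ x₂ y₁ y₂) = Y) :
    ∃ h' : W.Nonsingular X Y,
      Point.some x₁ y₁ h₁ + Point.some x₂ y₂ h₂ = Point.some X Y h' := by
  subst hX hY
  exact ⟨_, Point.add_of_X_ne hx⟩

/-- Negation with prescribed coordinates. -/
theorem neg_eq_some {W : Affine k} {x y Y : k} (h : W.Nonsingular x y) (hY : W.negY x y = Y) :
    ∃ h' : W.Nonsingular x Y, -Point.some x y h = Point.some x Y h' := by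
  subst hY
  exact ⟨_, Point.neg_some h⟩

/-- The Hasse operator over `𝔽₂`: `φ² P - a φ P + (P + P)`. -/
theorem hasseOp2_apply (E : WeierstrassCurve (ZMod 2)) (P : (E⁄k).Point) :
    hasseOp E k P =
      frobPt E k (frobPt E k P) - E.traceOfFrobenius • frobPt E k P + (P + P) := by
  have hcard : Fintype.card (ZMod 2) = 2 := ZMod.card 2
  rw [hasseOp_apply, hcard]
  rw [Nat.cast_ofNat, two_zsmul]

end field

end Fermat.Agent.H48.S58
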