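/-
P-S58 row 1094 S58-HASSE2 (helper48), part 4: the Hasse relation for the two ordinary normal
forms `y² + xy = x³ + 1` (trace `-1`) and `y² + xy = x³ + x² + 1` (trace `1`) over `𝔽₂`.

For `P = (x, y)` with `x ≠ 0, 1` put `u = 1 / x`.  The chord through `P` and `± φ P` has slope
`(y + x² + x + 1) u`, the point `R = P ± φ P` is `((x² + 1) u, (y (x² + 1) + x³ + x² + 1) u²)`
(the Verschiebung), the tangent at `P` has slope `(x² + y) u`, and `2 P = ∓ φ R`.  All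
identities are checked by `linear_combination` with explicit cofactors of the curve equation,
of `x u = 1` and of `2 = 0`.
-/
import Fermat.Agent.H48.S58.Hasse2Asm
import Fermat.Agent.H51.S58.HasseGeneric

set_option autoImplicit false
set_option linter.unusedSectionVars false
set_option linter.style.haveILetI false
set_option maxHeartbeats 1000000

namespace Fermat.Agent.H48.S58

open WeierstrassCurve WeierstrassCurve.Affine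
open Fermat.Agent.H40 Fermat.Agent.H74 Fermat.Agent.H46

variable {k : Type} [Field k] [DecidableEq k] [Algebra (ZMod 2) k]

theorem trace_ord0 : (⟨1, 0, 0, 0, 1⟩ : WeierstrassCurve (ZMod 2)).traceOfFrobenius = -1 := by
  rw [traceOfFrobenius_zmod2 _ {(0, 1), (1, 0), (1, 1)}
    (by simp only [nonsingular_iff, equation_iff]; decide)]
  rfl

theorem hasseOp_ord0 (x y : k) (h : ((⟨1, 0, 0, 0, 1⟩ : WeierstrassCurve (ZMod 2))⁄k).Nonsingular x y) (hx0 : x ≠ 0) (hx1 : x ≠ 1) :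
    hasseOp (⟨1, 0, 0, 0, 1⟩ : WeierstrassCurve (ZMod 2)) k (Point.some x y h) = 0 := by
  have h2 : (2 : k) = 0 := two_eq_zero_of_algebra
  obtain ⟨c1, c2, c3, c4, c6⟩ := coeffs_baseChange (k := k) 1 0 0 0 1
  simp only [map_zero, map_one] at c1 c2 c3 c4 c6
  have hE := h.1
  rw [equation_iff, c1, c2, c3, c4, c6] at hE
  obtain ⟨u, hu⟩ : ∃ u : k, x * u = 1 := ⟨x⁻¹, mul_inv_cancel₀ hx0⟩
  -- the tangent
  have hy : y ≠ ((⟨1, 0, 0, 0, 1⟩ : WeierstrassCurve (ZMod 2))⁄k).negY x y := by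
    intro hcon
    rw [negY, c1, c3] at hcon
    exact hx0 (by linear_combination hcon + (-y) * h2)
  have hL : ((⟨1, 0, 0, 0, 1⟩ : WeierstrassCurve (ZMod 2))⁄k).slope x x y y = (x ^ 2 + y) * u := by
    rw [slope_of_Y_ne rfl hy, div_eq_iff (sub_ne_zero.mpr hy), negY, c1, c2, c3, c4]
    linear_combination (-2 * u) * hE + (-3 * x ^ 2 - 2 * x * y + y) * hu + (-x * y - u) * h2
  have hX : ((⟨1, 0, 0, 0, 1⟩ : WeierstrassCurve (ZMod 2))⁄k).addX x x (((⟨1, 0, 0, 0, 1⟩ : WeierstrassCurve (ZMod 2))⁄k).slope x x y y) = ((x ^ 2 + 1) * u) ^ 2 := by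
    rw [hL, addX, c1, c2]
    linear_combination (u ^ 2) * hE + (x ^ 2 * u + 2 * x * y * u - 2 * x * u + 2 * x - y * u + 2 * y - 2) * hu + (y - 1) * h2
  have hY : ((⟨1, 0, 0, 0, 1⟩ : WeierstrassCurve (ZMod 2))⁄k).addY x x y (((⟨1, 0, 0, 0, 1⟩ : WeierstrassCurve (ZMod 2))⁄k).slope x x y y) =
      -(((y * (x ^ 2 + 1) + x ^ 3 + x ^ 2 + 1) * u ^ 2) ^ 2) - 1 * ((x ^ 2 + 1) * u) ^ 2 - 0 := by
    rw [addY, negAddY, negY, hX, hL, c1, c3]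
    linear_combination (x ^ 4 * u ^ 4 + 2 * x ^ 2 * u ^ 4 + u ^ 4) * hE + (x ^ 6 * u ^ 3 + x ^ 5 * u ^ 3 + x ^ 4 * y * u ^ 3 + 4 * x ^ 4 * u ^ 3 + x ^ 4 * u ^ 2 + 2 * x ^ 3 * y * u ^ 3 + 2 * x ^ 3 * u ^ 3 + 2 * x ^ 3 * u ^ 2 + x ^ 3 * u + 2 * x ^ 2 * y * u ^ 2 + 3 * x ^ 2 * u ^ 3 + 2 * x ^ 2 * u ^ 2 + 2 * x ^ 2 * u + 2 * x ^ 2 + 4 * x * y * u ^ 3 - 2 * x * y * u ^ 2 + 2 * x * y * u + 4 * x * u ^ 3 + 2 * x * u ^ 2 + 2 * x * u + 2 * x - y * u ^ 3 + 4 * y * u ^ 2 - 2 * y * u + 3 * y + 4 * u ^ 2 + 2 * u + 2) * hu + (x ^ 2 + x + y * u ^ 4 - y * u ^ 3 + 2 * y * u ^ 2 - y * u + y + u ^ 4 + 2 * u ^ 2 + u + 1) * h2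
  obtain ⟨hQ, eQ⟩ := add_self_eq h hy hX hY
  obtain ⟨hφ, eφ⟩ := frob2_some (⟨1, 0, 0, 0, 1⟩ : WeierstrassCurve (ZMod 2)) h
  -- the chord
  have hne : x ≠ x ^ 2 := by
    intro hcon
    have h0 : x * (x - 1) = 0 := by linear_combination -hcon
    rcases mul_eq_zero.mp h0 with h0 | h0
    · exact hx0 h0
    · exact hx1 (sub_eq_zero.mp h0)
  have hν : ((⟨1, 0, 0, 0, 1⟩ : WeierstrassCurve (ZMod 2))⁄k).slope x (x ^ 2) y (y ^ 2) = (y + x ^ 2 + x + 1) * u := by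
    rw [slope_of_X_ne hne, div_eq_iff (sub_ne_zero.mpr hne)]
    linear_combination (-1) * hE + (x ^ 3 + x * y - y - 1) * hu + (x * y - 1) * h2
  have hXR : ((⟨1, 0, 0, 0, 1⟩ : WeierstrassCurve (ZMod 2))⁄k).addX x (x ^ 2) (((⟨1, 0, 0, 0, 1⟩ : WeierstrassCurve (ZMod 2))⁄k).slope x (x ^ 2) y (y ^ 2)) = (x ^ 2 + 1) * u := by
    rw [hν, addX, c1, c2]
    linear_combination (u ^ 2) * hE + (x ^ 3 * u + 3 * x ^ 2 * u + x ^ 2 + 2 * x * y * u + 3 * x * u + 3 * x + y * u + 2 * y + 2 * u + 4) * hu + (x + y * u ^ 2 + y * u + y + u ^ 2 + u + 2) * h2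
  have hYR : ((⟨1, 0, 0, 0, 1⟩ : WeierstrassCurve (ZMod 2))⁄k).addY x (x ^ 2) y (((⟨1, 0, 0, 0, 1⟩ : WeierstrassCurve (ZMod 2))⁄k).slope x (x ^ 2) y (y ^ 2)) =
      (y * (x ^ 2 + 1) + x ^ 3 + x ^ 2 + 1) * u ^ 2 := by
    rw [addY, negAddY, negY, hXR, hν, c1, c3]
    linear_combination (-x ^ 3 * u - 2 * x ^ 2 * u - 2 * x * y * u - 3 * x * u - 2 * x - y - u - 2) * hu + (-x - y * u ^ 2 - y - u ^ 2 - u - 1) * h2
  obtain ⟨hR, eR⟩ := add_eq_of_X_ne h hφ hne hXR hYR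
  obtain ⟨hφR, eφR⟩ := frob2_some (⟨1, 0, 0, 0, 1⟩ : WeierstrassCurve (ZMod 2)) hR
  have hnegR : ((⟨1, 0, 0, 0, 1⟩ : WeierstrassCurve (ZMod 2))⁄k).negY (((x ^ 2 + 1) * u) ^ 2) (((y * (x ^ 2 + 1) + x ^ 3 + x ^ 2 + 1) * u ^ 2) ^ 2) =
      -(((y * (x ^ 2 + 1) + x ^ 3 + x ^ 2 + 1) * u ^ 2) ^ 2) - 1 * ((x ^ 2 + 1) * u) ^ 2 - 0 := by
    rw [negY, c1, c3]
  obtain ⟨hN, eN⟩ := neg_eq_some hφR hnegR
  have key : Point.some x y h + Point.some x y h =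
      -frobPt (⟨1, 0, 0, 0, 1⟩ : WeierstrassCurve (ZMod 2)) k (Point.some x y h + frobPt (⟨1, 0, 0, 0, 1⟩ : WeierstrassCurve (ZMod 2)) k (Point.some x y h)) := by
    rw [eφ, eR, eφR, eN, eQ]
  rw [hasseOp2_apply, trace_ord0, key, map_add, neg_smul, one_smul]
  abel

theorem hasseRelation_ord0 : HasseRelation (⟨1, 0, 0, 0, 1⟩ : WeierstrassCurve (ZMod 2)) := by
  classical
  refine Fermat.Agent.H51.S58.hasseRelation_of_generic _ (by decide) ?_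
  intro K _ _ _ _
  refine ⟨{0, 1}, fun x y hxy hx => ?_⟩
  rw [Finset.mem_insert, Finset.mem_singleton, not_or] at hx
  rw [hasseOp_ord0 x y hxy hx.1 hx.2, smul_zero]

theorem trace_ord1 : (⟨1, 1, 0, 0, 1⟩ : WeierstrassCurve (ZMod 2)).traceOfFrobenius = 1 := by
  rw [traceOfFrobenius_zmod2 _ {(0, 1)}
    (by simp only [nonsingular_iff, equation_iff]; decide)]
  rfl

theorem hasseOp_ord1 (x y : k) (h : ((⟨1, 1, 0, 0, 1⟩ : WeierstrassCurve (ZMod 2))⁄k).Nonsingular x y) (hx0 : x ≠ 0) (hx1 : x ≠ 1) :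
    hasseOp (⟨1, 1, 0, 0, 1⟩ : WeierstrassCurve (ZMod 2)) k (Point.some x y h) = 0 := by
  have h2 : (2 : k) = 0 := two_eq_zero_of_algebra
  obtain ⟨c1, c2, c3, c4, c6⟩ := coeffs_baseChange (k := k) 1 1 0 0 1
  simp only [map_zero, map_one] at c1 c2 c3 c4 c6
  have hE := h.1
  rw [equation_iff, c1, c2, c3, c4, c6] at hE
  obtain ⟨u, hu⟩ : ∃ u : k, x * u = 1 := ⟨x⁻¹, mul_inv_cancel₀ hx0⟩
  -- the tangent
  have hy : y ≠ ((⟨1, 1, 0, 0, 1⟩ : WeierstrassCurve (ZMod 2))⁄k).negY x y := by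
    intro hcon
    rw [negY, c1, c3] at hcon
    exact hx0 (by linear_combination hcon + (-y) * h2)
  have hL : ((⟨1, 1, 0, 0, 1⟩ : WeierstrassCurve (ZMod 2))⁄k).slope x x y y = (x ^ 2 + y) * u := by
    rw [slope_of_Y_ne rfl hy, div_eq_iff (sub_ne_zero.mpr hy), negY, c1, c2, c3, c4]
    linear_combination (-2 * u) * hE + (-3 * x ^ 2 - 2 * x * y - 2 * x + y) * hu + (-x * y - u) * h2
  have hX : ((⟨1, 1, 0, 0, 1⟩ : WeierstrassCurve (ZMod 2))⁄k).addX x x (((⟨1, 1, 0, 0, 1⟩ : WeierstrassCurve (ZMod 2))⁄k).slope x x y y) = ((x ^ 2 + 1) * u) ^ 2 := by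
    rw [hL, addX, c1, c2]
    linear_combination (u ^ 2) * hE + (x ^ 2 * u + 2 * x * y * u - x * u + 2 * x - y * u + 2 * y - 1) * hu + (y - 1) * h2
  have hY : ((⟨1, 1, 0, 0, 1⟩ : WeierstrassCurve (ZMod 2))⁄k).addY x x y (((⟨1, 1, 0, 0, 1⟩ : WeierstrassCurve (ZMod 2))⁄k).slope x x y y) =
      ((y * (x ^ 2 + 1) + x ^ 3 + x ^ 2 + 1) * u ^ 2) ^ 2 := by
    rw [addY, negAddY, negY, hX, hL, c1, c3]
    linear_combination (-x ^ 4 * u ^ 4 - 2 * x ^ 2 * u ^ 4 - u ^ 4) * hE + (-x ^ 6 * u ^ 3 - 2 * x ^ 5 * u ^ 3 - 2 * x ^ 5 * u ^ 2 - x ^ 4 * y * u ^ 3 - 4 * x ^ 4 * u ^ 3 - 2 * x ^ 4 * u ^ 2 - 2 * x ^ 4 * u - 2 * x ^ 3 * y * u ^ 3 - 2 * x ^ 3 * y * u ^ 2 - 4 * x ^ 3 * u ^ 3 - 6 * x ^ 3 * u ^ 2 - 3 * x ^ 3 * u - 2 * x ^ 3 - 2 * x ^ 2 * y * u ^ 2 - 2 * x ^ 2 * y * u - 3 * x ^ 2 * u ^ 3 - 4 * x ^ 2 * u ^ 2 - 6 * x ^ 2 * u - 2 * x ^ 2 - 4 * x * y *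 u ^ 3 - 2 * x * y * u ^ 2 - 2 * x * y * u - 2 * x * y - 5 * x * u ^ 3 - 4 * x * u ^ 2 - 6 * x * u - 6 * x + y * u ^ 3 - 4 * y * u ^ 2 - 2 * y * u - y - 5 * u ^ 2 - 4 * u - 6) * hu + (-x ^ 3 - x ^ 2 - x * y - 3 * x - y * u ^ 4 - 2 * y * u ^ 2 - y * u - y - u ^ 4 - 3 * u ^ 2 - 2 * u - 3) * h2
  obtain ⟨hQ, eQ⟩ := add_self_eq h hy hX hY
  obtain ⟨hφ, eφ⟩ := frob2_some (⟨1, 1, 0, 0, 1⟩ : WeierstrassCurve (ZMod 2)) h
  -- the chord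
  have hne : x ≠ x ^ 2 := by
    intro hcon
    have h0 : x * (x - 1) = 0 := by linear_combination -hcon
    rcases mul_eq_zero.mp h0 with h0 | h0
    · exact hx0 h0
    · exact hx1 (sub_eq_zero.mp h0)
  have hnegφ : ((⟨1, 1, 0, 0, 1⟩ : WeierstrassCurve (ZMod 2))⁄k).negY (x ^ 2) (y ^ 2) = -(y ^ 2) - 1 * x ^ 2 - 0 := by
    rw [negY, c1, c3]
  obtain ⟨hN, eN⟩ := neg_eq_some hφ hnegφ
  have hν : ((⟨1, 1, 0, 0, 1⟩ : WeierstrassCurve (ZMod 2))⁄k).slope x (x ^ 2) y (-(y ^ 2) - 1 * x ^ 2 - 0) = (y + x ^ 2 + x + 1) * u := by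
    rw [slope_of_X_ne hne, div_eq_iff (sub_ne_zero.mpr hne)]
    linear_combination (1) * hE + (x ^ 3 + x * y - y - 1) * hu + (x ^ 3 + x ^ 2) * h2
  have hXR : ((⟨1, 1, 0, 0, 1⟩ : WeierstrassCurve (ZMod 2))⁄k).addX x (x ^ 2) (((⟨1, 1, 0, 0, 1⟩ : WeierstrassCurve (ZMod 2))⁄k).slope x (x ^ 2) y (-(y ^ 2) - 1 * x ^ 2 - 0)) = (x ^ 2 + 1) * u := by
    rw [hν, addX, c1, c2]
    linear_combination (u ^ 2) * hE + (x ^ 3 * u + 3 * x ^ 2 * u + x ^ 2 + 2 * x * y * u + 4 * x * u + 3 * x + y * u + 2 * y + 2 * u + 5) * hu + (x + y * u ^ 2 + y * u + y + u ^ 2 + u + 2) * h2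
  have hYR : ((⟨1, 1, 0, 0, 1⟩ : WeierstrassCurve (ZMod 2))⁄k).addY x (x ^ 2) y (((⟨1, 1, 0, 0, 1⟩ : WeierstrassCurve (ZMod 2))⁄k).slope x (x ^ 2) y (-(y ^ 2) - 1 * x ^ 2 - 0)) =
      (y * (x ^ 2 + 1) + x ^ 3 + x ^ 2 + 1) * u ^ 2 := by
    rw [addY, negAddY, negY, hXR, hν, c1, c3]
    linear_combination (-x ^ 3 * u - 2 * x ^ 2 * u - 2 * x * y * u - 3 * x * u - 2 * x - y - u - 2) * hu + (-x - y * u ^ 2 - y - u ^ 2 - u - 1) * h2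
  obtain ⟨hR, eR⟩ := add_eq_of_X_ne h hN hne hXR hYR
  obtain ⟨hφR, eφR⟩ := frob2_some (⟨1, 1, 0, 0, 1⟩ : WeierstrassCurve (ZMod 2)) hR
  have key : Point.some x y h + Point.some x y h =
      frobPt (⟨1, 1, 0, 0, 1⟩ : WeierstrassCurve (ZMod 2)) k (Point.some x y h + -frobPt (⟨1, 1, 0, 0, 1⟩ : WeierstrassCurve (ZMod 2)) k (Point.some x y h)) := by
    rw [eφ, eN, eR, eφR, eQ]
  rw [hasseOp2_apply, trace_ord1, key, map_add, map_neg, one_smul]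
  abel

theorem hasseRelation_ord1 : HasseRelation (⟨1, 1, 0, 0, 1⟩ : WeierstrassCurve (ZMod 2)) := by
  classical
  refine Fermat.Agent.H51.S58.hasseRelation_of_generic _ (by decide) ?_
  intro K _ _ _ _
  refine ⟨{0, 1}, fun x y hxy hx => ?_⟩
  rw [Finset.mem_insert, Finset.mem_singleton, not_or] at hx
  rw [hasseOp_ord1 x y hxy hx.1 hx.2, smul_zero]

/-- **[HASSE2]** the Hasse relation for every elliptic curve over `𝔽₂`. -/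
theorem hasseTwo : @Fermat.Agent.H51.S58.HasseSmallStatement 2 (Fact.mk Nat.prime_two) :=
  hasseTwo_of_ordinary hasseRelation_ord0 hasseRelation_ord1

end Fermat.Agent.H48.S58
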